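/-
S45lib / Hub / Iface  (helper7, architect of Project J)

THE ONE GEOMETRIC INTERFACE OF S45.

`AuxInertiaNewK p` : (C36) at the levels `(M q^j) q = M q^(j+1)` with exponent `j + 1 ≥ 3`, at the
auxiliary levels `M` of `S36lib/Fin/AuxLevel` only (`36 ∣ M` for `q ≥ 5`, `9 ∣ M` for `q = 2`,
`4 ∣ M` for `q = 3`; `q ∤ M`, `q ≠ p`): up to a fixed nonzero integer, a `p`-power torsion class of
`J₀(M q^(j+1))` which is `q`-new (`pushAlpha = pushBeta = 0`) and fixed by the inertia group of a
valuation ring over `q` is zero.  The case `j = 1` is `S36lib`'s theorem.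

`InertiaKillSq N p g` : helper3's (IKILL) at ALL primes `q ≠ p` with `q² ∣ N`.
-/
import Fermat.Agent.S36lib.Fin.AuxLevel
import Fermat.Agent.S36lib.KillInterface36

set_option autoImplicit false

noncomputable section

namespace Fermat.Agent.S45lib.Hub

open CuspForm CongruenceSubgroup ModularCurve
open Fermat.Agent.S36lib

/-- **(C45) at the auxiliary levels**, exponent `j + 1 ≥ 3`: the only open input of S45. -/
def AuxInertiaNewK (p : ℕ) : Prop :=
  ∀ (M q j : ℕ) [NeZero M] [NeZero q] [NeZero (M * q ^ j)], q.Prime → ¬ q ∣ M → q ≠ p →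
    Fin.IsAuxLevel M q → 2 ≤ j → Xfer.InertiaNewTors (M * q ^ j) q p

/-- **(IKILL) at every prime `q ≠ p` with `q² ∣ N`.** -/
def InertiaKillSq (N p : ℕ) [NeZero N] (g : CuspForm (Gamma0 N) 2) : Prop :=
  ∀ q : ℕ, q.Prime → q ≠ p → q ^ 2 ∣ N → InertiaKillAt N p q g

end Fermat.Agent.S45lib.Hub
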