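/-
S45lib / Hub / Gal  (helper7)

THE GALOIS SIDE OF S36 AT ALL EXPONENTS `≥ 2`.

Verbatim copies of helper3's `S36lib/Gal/Galois36` (`exists_adic_galois_in`, `exists_adic_matrix_in`),
of the inertia clause of `S36lib/Gal/AdicX36` (`IsInertiaFreePiece`,
`not_isUnipotentOnInertiaAt_of_inertiaFree`) and of `S36lib/S36Of.s36_of_inertiaKill`, with the
selector `N.factorization q = 2` replaced by `q ^ 2 ∣ N` and the hypothesis `InertiaKillTors N p g`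
replaced by `Hub.InertiaKillSq N p g` (the proofs never used the value of the exponent).

* `s36k_of_inertiaKill` : a newform/eigenform `g` of level `N` with `InertiaKillSq N p g` whose attached
  representations are residually absolutely irreducible has an attached `ρ` with
  `¬ ρ.IsUnipotentOnInertiaAt q` for every prime `q ≠ p` with `q² ∣ N`.
-/
import Fermat.Agent.S45lib.Hub.Iface
import Fermat.Agent.S36lib.S36Of

set_option autoImplicit false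
set_option linter.style.haveILetI false
set_option linter.unusedSectionVars false

noncomputable section

namespace Fermat.Agent.S45lib.Hub

open Polynomial ModularCurve Matrix IsLocalRing
open Fermat.Agent.S29lib Fermat.Agent.S29lib.E Fermat.Agent.S29lib.X
  Fermat.Agent.ExtVan.InertiaLift Fermat.Agent.S29lib.Dvr Fermat.Agent.S29lib.S30
  Fermat.Agent.S35lib Fermat.Agent.S36lib

/-- `ℚ̄` -/
local notation "Qb" => AlgebraicClosure ℚ
/-- `G_ℚ` -/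
local notation "GQ" => (AlgebraicClosure ℚ ≃ₐ[ℚ] AlgebraicClosure ℚ)

section Galois

variable {N p : ℕ} [NeZero N] [hpf : Fact p.Prime]

/-- **S30 brick (C), Galois form, with the inertia clause.** -/
theorem exists_adic_galois_sq (C : ComparisonData N p) (LD : LocalData N p)
    {g : CuspForm (CongruenceSubgroup.Gamma0 N) 2} (hK : InertiaKillSq N p g)
    (O : Type) [CommRing O] [IsDomain O] [IsDiscreteValuationRing O] [CharZero O]
    [IsAdicComplete (IsLocalRing.maximalIdeal O) O] (hpO : (p : O) ∈ IsLocalRing.maximalIdeal O)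
    (a : Nat.Primes → O)
    (ha : ∀ P : FreeAlgebra ℤ Nat.Primes, coeffEval g P ≠ 0 → FreeAlgebra.lift ℤ a P ≠ 0)
    {L : Type} [Field L] (emb : O →+* L) (hemb : Function.Injective emb)
    (hfin : Module.finrank L ↥(⨅ ℓ : Nat.Primes, LinearMap.ker
      (Matrix.toLin' ((C.t ℓ).map (Int.cast : ℤ → L)) - emb (a ℓ) • 1)) = 2) :
    ∃ (V : Submodule O (Fin C.r → O)) (ρ : GQ →* Module.End O V),
      Module.Free O V ∧ Module.Finite O V ∧ Module.finrank O V = 2 ∧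
      GaloisActionIsAdicContinuous O ρ ∧
      (∀ ℓ : ℕ, ℓ.Prime → ¬ ℓ ∣ N * p →
        ∀ A : ValuationSubring Qb, A.LiesOverPrime ℓ → ∀ σ ∈ A.inertiaSubgroupIn ℚ, ρ σ = 1) ∧
      (∀ (ℓ : ℕ) (hℓ : ℓ.Prime), ¬ ℓ ∣ N * p →
        ∀ A : ValuationSubring Qb, A.LiesOverPrime ℓ → ∀ σ : GQ, A.IsFrobeniusAt σ ℓ →
          ρ σ * ρ σ - a ⟨ℓ, hℓ⟩ • ρ σ + (ℓ : O) • (1 : Module.End O V) = 0) ∧
      (∀ q : ℕ, q.Prime → q ≠ p → q ^ 2 ∣ N →
        ∀ A : ValuationSubring Qb, A.LiesOverPrime q →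
          ∀ x : V, (∀ σ ∈ A.inertiaSubgroupIn ℚ, ρ σ x = x) → x = 0) := by
  obtain ⟨V, ρ, hfree, hfinite, hrank, hcont, hfix, hfrob, -, hin⟩ :=
    exists_adic_lattice_in (torsionSystemOf C) O hpO a emb hemb hfin
  refine ⟨V, ρ, hfree, hfinite, hrank, ?_, ?_, ?_, ?_⟩
  · intro n
    obtain ⟨L', hL', hLfix⟩ := LD.finiteLevel n
    exact ⟨L', hL', fun σ hσ v => hcont n σ
      (fun (x : Tors N (p ^ n)) => Subtype.ext (hLfix σ hσ (x : JZero N) x.2)) v⟩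
  · intro ℓ hℓ hℓNp A hA σ hσ
    exact hfix σ (fun k (x : Tors N (p ^ k)) =>
      Subtype.ext (LD.unram ℓ hℓ hℓNp A hA σ hσ k (x : JZero N) x.2))
  · intro ℓ hℓ hℓNp A hA σ hσ
    refine hfrob σ ⟨ℓ, hℓ⟩ ℓ (fun k (x : Tors N (p ^ k)) => ?_)
    apply frob_tors C k σ ⟨ℓ, hℓ⟩ x
    have h1 := LD.frob ℓ hℓ hℓNp A hA σ hσ k (x : JZero N) x.2
    have hN : ¬ ℓ ∣ N := fun h => hℓNp (dvd_mul_of_dvd_left h p)
    rw [C.TJ_good ⟨ℓ, hℓ⟩ hN, ← natCast_zsmul]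
    exact h1
  · intro q hq hqp hqN A hA x hx
    obtain ⟨c, P, hc, hP, hrel⟩ := hK q hq hqp hqN
    have hne : (c : O) * FreeAlgebra.lift ℤ a P ≠ 0 :=
      mul_ne_zero (Int.cast_ne_zero.mpr hc) (ha P hP)
    refine hin (↑(A.inertiaSubgroupIn ℚ) : Set GQ) c P hne
      (fun k (y : Tors N (p ^ k)) hy => ?_) x hx
    refine ⟨⟨heckeEval C.TJ P y, heckeEval_mem_Tors C.TJ P y.2⟩,
      κ_heckeEval C k P y _ rfl, ?_⟩
    apply Subtype.ext
    exact hrel C.TJ C.TJ_good A hA k (y : JZero N) y.2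
      (fun σ hσ => congrArg Subtype.val (hy σ hσ))

/-- **S30 brick (C), matrix form, with the inertia clause.** -/
theorem exists_adic_matrix_sq (C : ComparisonData N p) (LD : LocalData N p)
    {g : CuspForm (CongruenceSubgroup.Gamma0 N) 2} (hK : InertiaKillSq N p g)
    (O : Type) [CommRing O] [IsDomain O] [IsDiscreteValuationRing O] [CharZero O]
    [IsAdicComplete (IsLocalRing.maximalIdeal O) O] (hpO : (p : O) ∈ IsLocalRing.maximalIdeal O)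
    (a : Nat.Primes → O)
    (ha : ∀ P : FreeAlgebra ℤ Nat.Primes, coeffEval g P ≠ 0 → FreeAlgebra.lift ℤ a P ≠ 0)
    {L : Type} [Field L] (emb : O →+* L) (hemb : Function.Injective emb)
    (hfin : Module.finrank L ↥(⨅ ℓ : Nat.Primes, LinearMap.ker
      (Matrix.toLin' ((C.t ℓ).map (Int.cast : ℤ → L)) - emb (a ℓ) • 1)) = 2) :
    ∃ M : GQ →* Matrix (Fin 2) (Fin 2) O,
      (∀ n : ℕ, ∃ L' : IntermediateField ℚ Qb, FiniteDimensional ℚ L' ∧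
        ∀ σ : GQ, (∀ x ∈ L', σ x = x) →
          ∀ i j, (M σ - 1) i j ∈ IsLocalRing.maximalIdeal O ^ n) ∧
      (∀ ℓ : ℕ, ℓ.Prime → ¬ ℓ ∣ N * p →
        ∀ A : ValuationSubring Qb, A.LiesOverPrime ℓ → ∀ σ ∈ A.inertiaSubgroupIn ℚ, M σ = 1) ∧
      (∀ (ℓ : ℕ) (hℓ : ℓ.Prime), ¬ ℓ ∣ N * p →
        ∀ A : ValuationSubring Qb, A.LiesOverPrime ℓ → ∀ σ : GQ, A.IsFrobeniusAt σ ℓ →
          M σ * M σ - a ⟨ℓ, hℓ⟩ • M σ + (ℓ : O) • (1 : Matrix (Fin 2) (Fin 2) O) = 0) ∧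
      (∀ q : ℕ, q.Prime → q ≠ p → q ^ 2 ∣ N →
        ∀ A : ValuationSubring Qb, A.LiesOverPrime q →
          ∀ v : Fin 2 → O, (∀ σ ∈ A.inertiaSubgroupIn ℚ, M σ *ᵥ v = v) → v = 0) := by
  obtain ⟨V, ρ, hfree, hfinite, hrank, hcont, hunram, hfrob, hin⟩ :=
    exists_adic_galois_sq C LD hK O hpO a ha emb hemb hfin
  let b : Module.Basis (Fin 2) O V := Module.finBasisOfFinrankEq O V hrank
  let Φ : Module.End O V ≃ₐ[O] Matrix (Fin 2) (Fin 2) O := LinearMap.toMatrixAlgEquiv b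
  let M : GQ →* Matrix (Fin 2) (Fin 2) O := (Φ : Module.End O V →* Matrix (Fin 2) (Fin 2) O).comp ρ
  have hM : ∀ σ, M σ = Φ (ρ σ) := fun σ => rfl
  refine ⟨M, ?_, ?_, ?_, ?_⟩
  · intro n
    obtain ⟨L', hL', hL'fix⟩ := hcont n
    refine ⟨L', hL', fun σ hσ i j => ?_⟩
    have h1 : (M σ - 1) i j = b.repr (ρ σ (b j) - b j) i := by
      rw [hM, ← map_one Φ, ← map_sub]
      show LinearMap.toMatrixAlgEquiv b (ρ σ - 1) i j = _
      rw [LinearMap.toMatrixAlgEquiv_apply, LinearMap.sub_apply, Module.End.one_apply]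
    rw [h1]
    exact S30.repr_mem_of_mem_smul_top b _ (hL'fix σ hσ (b j)) i
  · intro ℓ hℓ hℓNp A hA σ hσ
    rw [hM, hunram ℓ hℓ hℓNp A hA σ hσ, map_one]
  · intro ℓ hℓ hℓNp A hA σ hσ
    have h0 := hfrob ℓ hℓ hℓNp A hA σ hσ
    rw [hM]
    generalize a ⟨ℓ, hℓ⟩ = c at h0 ⊢
    have h1 : Φ (ρ σ * ρ σ - c • ρ σ + (ℓ : O) • 1) = 0 := by rw [h0, map_zero]
    have e1 := map_add Φ (ρ σ * ρ σ - c • ρ σ) ((ℓ : O) • 1)
    have e2 := map_sub Φ (ρ σ * ρ σ) (c • ρ σ)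
    have e3 := map_mul Φ (ρ σ) (ρ σ)
    have e4 := map_smul Φ c (ρ σ)
    have e5 := map_smul Φ (ℓ : O) (1 : Module.End O V)
    have e6 := map_one Φ
    rw [e1, e2, e3, e4, e5, e6] at h1
    exact h1
  · intro q hq hqp hqN A hA v hv
    -- the vector of `V` with coordinates `v`
    set x : V := b.equivFun.symm v with hx
    have hfixx : ∀ σ ∈ A.inertiaSubgroupIn ℚ, ρ σ x = x := by
      intro σ hσ
      apply b.equivFun.injective
      have h1 : b.equivFun (ρ σ x) = LinearMap.toMatrix b b (ρ σ) *ᵥ b.equivFun x := by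
        funext i
        rw [Module.Basis.equivFun_apply, Module.Basis.equivFun_apply,
          LinearMap.toMatrix_mulVec_repr]
      rw [h1, hx, LinearEquiv.apply_symm_apply]
      exact hv σ hσ
    have hx0 := hin q hq hqp hqN A hA x hfixx
    have : v = b.equivFun x := by rw [hx, LinearEquiv.apply_symm_apply]
    rw [this, hx0, map_zero]


end Galois

/-! ### the inertia clause for adic pieces (selector `q ^ 2 ∣ N`) -/

section Piece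

variable {N p : ℕ} {A : Type} [CommRing A] [IsLocalRing A] {a : Nat.Primes → A}

/-- the inertia clause for an adic piece: for `q² ∣ N`, `q ≠ p`, and `B` over `q`, no nonzero vector
is fixed by all `M(σ)`, `σ ∈ I_B`. -/
def IsInertiaFreePieceSq (P : AdicPiece N p A a) : Prop :=
  ∀ q : ℕ, q.Prime → q ≠ p → q ^ 2 ∣ N →
    ∀ B : ValuationSubring Qb, B.LiesOverPrime q →
      ∀ v : Fin 2 → A, (∀ σ ∈ B.inertiaSubgroupIn ℚ, P.M σ *ᵥ v = v) → v = 0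

/-- **inertia clause + Kolchin ⇒ not unipotent on inertia.** -/
theorem not_isUnipotentOnInertiaAt_of_inertiaFreeSq [IsDomain A] (P : AdicPiece N p A a)
    (hP : IsInertiaFreePieceSq P) {q : ℕ} (hq : q.Prime) (hqp : q ≠ p)
    (hqN : q ^ 2 ∣ N) : ¬ P.toRep.IsUnipotentOnInertiaAt q := by
  intro hun
  obtain ⟨B, hB⟩ := Fermat.Agent.S13lib.exists_liesOverPrime hq
  have hH : ∀ σ ∈ ((B.inertiaSubgroupIn ℚ : Subgroup GQ) : Set GQ),
      (P.M σ).trace = 2 ∧ (P.M σ).det = 1 := by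
    intro σ hσ
    have h1 : LinearMap.charpoly (Matrix.toLin' (P.M σ)) = (X - 1) ^ 2 := hun B hB σ hσ
    rw [Matrix.charpoly_toLin'] at h1
    exact trace_det_of_charpoly_eq _ h1
  obtain ⟨v, hv0, hv⟩ := kolchin_two P.M ((B.inertiaSubgroupIn ℚ : Subgroup GQ) : Set GQ)
    (fun σ hσ τ hτ => (B.inertiaSubgroupIn ℚ).mul_mem hσ hτ) hH
  exact hv0 (hP q hq hqp hqN B hB v hv)

end Piece

/-- **S36 at all exponents `≥ 2` from `InertiaKillSq`.** -/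
theorem s36k_of_inertiaKill (p : ℕ) [Fact p.Prime] (N : ℕ) [NeZero N]
    {g : CuspForm (CongruenceSubgroup.Gamma0 N) 2} (hg : g.IsNormalizedEigenform)
    (hK : InertiaKillSq N p g) (S : Finset ℕ)
    (hpS : p ∈ S) (hNS : ∀ q : ℕ, q.Prime → q ∣ N → q ∈ S)
    (𝒪' : Type) [CommRing 𝒪'] [IsDomain 𝒪'] [IsDiscreteValuationRing 𝒪']
    [IsAdicComplete (IsLocalRing.maximalIdeal 𝒪') 𝒪'] [Finite (IsLocalRing.ResidueField 𝒪')]
    [CharZero 𝒪'] (hp𝒪' : (p : 𝒪') ∈ IsLocalRing.maximalIdeal 𝒪')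
    (chig : CuspForm.heckeAlgebra N 2 (↑S : Set ℕ) →+* ℂ)
    (hchig : ∀ (ℓ : ℕ) (hℓ : ℓ.Prime) (hℓN : ¬ ℓ ∣ N) (hℓS : ℓ ∉ (↑S : Set ℕ)),
      chig (CuspForm.heckeAlgebra.T hℓ hℓN hℓS) = ModularFormClass.qCoeff g ℓ)
    (iota : chig.range →+* 𝒪')
    (hres : ∀ (𝒪'' : Type) [CommRing 𝒪''] [IsDomain 𝒪''] [IsDiscreteValuationRing 𝒪'']
      [IsAdicComplete (IsLocalRing.maximalIdeal 𝒪'') 𝒪''] [Finite (IsLocalRing.ResidueField 𝒪'')]
      [CharZero 𝒪''] [Algebra 𝒪' 𝒪''] [Module.Finite 𝒪' 𝒪''] [IsLocalHom (algebraMap 𝒪' 𝒪'')],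
      Function.Injective (algebraMap 𝒪' 𝒪'') → ∀ (ρ : GaloisRepAdic 𝒪''),
      (∀ (ℓ : ℕ) (hℓ : ℓ.Prime) (_ : ℓ ≠ p) (hℓN : ¬ ℓ ∣ N) (hℓS : ℓ ∉ (↑S : Set ℕ)),
        ∀ A : ValuationSubring (AlgebraicClosure ℚ), A.LiesOverPrime ℓ →
          ∀ σ : AlgebraicClosure ℚ ≃ₐ[ℚ] AlgebraicClosure ℚ, A.IsFrobeniusAt σ ℓ →
            LinearMap.charpoly (ρ.ρ σ) =
              X ^ 2 - C (algebraMap 𝒪' 𝒪'' ((iota.comp chig.rangeRestrict)
                (CuspForm.heckeAlgebra.T hℓ hℓN hℓS))) * X + C ((ℓ : 𝒪'')))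
      → ρ.residual.IsAbsolutelyIrreducible) :
    ∃ (𝒪'' : Type) (_ : CommRing 𝒪'') (_ : IsDomain 𝒪'') (_ : IsDiscreteValuationRing 𝒪'')
      (_ : IsAdicComplete (IsLocalRing.maximalIdeal 𝒪'') 𝒪'')
      (_ : Finite (IsLocalRing.ResidueField 𝒪'')) (_ : CharZero 𝒪'')
      (_ : Algebra 𝒪' 𝒪'') (_ : Module.Finite 𝒪' 𝒪'') (_ : IsLocalHom (algebraMap 𝒪' 𝒪'')),
    Function.Injective (algebraMap 𝒪' 𝒪'') ∧
    ∃ ρ : GaloisRepAdic 𝒪'',
      (∀ (ℓ : ℕ) (hℓ : ℓ.Prime) (hℓN : ¬ ℓ ∣ N) (hℓS : ℓ ∉ (↑S : Set ℕ)),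
        ∀ A : ValuationSubring (AlgebraicClosure ℚ), A.LiesOverPrime ℓ →
          ∀ σ : AlgebraicClosure ℚ ≃ₐ[ℚ] AlgebraicClosure ℚ, A.IsFrobeniusAt σ ℓ →
            LinearMap.charpoly (ρ.ρ σ) =
              X ^ 2 - C (algebraMap 𝒪' 𝒪'' ((iota.comp chig.rangeRestrict)
                (CuspForm.heckeAlgebra.T hℓ hℓN hℓS))) * X + C ((ℓ : 𝒪''))) ∧
      (∀ q : ℕ, q.Prime → q ≠ p → q ^ 2 ∣ N → ¬ ρ.IsUnipotentOnInertiaAt q) := by
  classical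
  have hp : p.Prime := Fact.out
  -- comparison data, eigen input, local data
  obtain ⟨Cd, hCg⟩ := Z.compStatement N p hp
  have hL : LocalData N p := GH.localData_of_comparisonData Cd hp.ne_zero
  obtain ⟨EI⟩ := hCg g hg
  -- eigen data for `g` itself
  obtain ⟨K₁, hfd, a₁, hfinL, ha₁, hkill₁⟩ :=
    exists_eigen_data_of_eigenform Cd hg EI (↑S : Set ℕ) hNS 𝒪' chig hchig iota
  haveI := hfd
  -- the DVR `O1`
  obtain ⟨_, _, _, _, _, hfin1, hloc1, hinj1⟩ := exists_dvr_structure 𝒪' (FractionRing 𝒪') K₁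
  have hpO1 : (p : OL 𝒪' K₁) ∈ IsLocalRing.maximalIdeal (OL 𝒪' K₁) := by
    have h1 : (p : OL 𝒪' K₁) = algebraMap 𝒪' (OL 𝒪' K₁) (p : 𝒪') := (map_natCast _ p).symm
    rw [h1]
    exact map_nonunit (algebraMap 𝒪' (OL 𝒪' K₁)) _ hp𝒪'
  -- brick C: the matrices
  obtain ⟨M, hM1, hM2, hM3, hM4⟩ := exists_adic_matrix_sq Cd hL hK (OL 𝒪' K₁) hpO1 a₁ hkill₁
    (algebraMap (OL 𝒪' K₁) K₁) Subtype.val_injective hfinL
  let P : AdicPiece N p (OL 𝒪' K₁) a₁ := ⟨M, hM1, hM2, hM3⟩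
  have hPI : IsInertiaFreePieceSq P := hM4
  -- block X: the piece is good
  have hgood : P.IsGood := by
    refine isGood_of_forall_absIrr (NeZero.ne N) (OL 𝒪' K₁) hpO1 a₁ P ?_
    intro O₂ _ _ _ _ _ _ _ _ _ hinj2 ρ hatt
    letI : Algebra 𝒪' O₂ :=
      ((algebraMap (OL 𝒪' K₁) O₂).comp (algebraMap 𝒪' (OL 𝒪' K₁))).toAlgebra
    haveI : IsScalarTower 𝒪' (OL 𝒪' K₁) O₂ := IsScalarTower.of_algebraMap_eq fun _ => rfl
    haveI : Module.Finite 𝒪' O₂ := Module.Finite.trans (OL 𝒪' K₁) O₂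
    haveI : IsLocalHom (algebraMap 𝒪' O₂) :=
      RingHom.isLocalHom_comp (algebraMap (OL 𝒪' K₁) O₂) (algebraMap 𝒪' (OL 𝒪' K₁))
    refine hres O₂ (hinj2.comp hinj1) ρ ?_
    intro ℓ hℓ hℓp hℓN hℓS A hA σ hσ
    rw [hatt.1 ℓ hℓ (not_dvd_mul_of_prime hℓ hp hℓN hℓp) A hA σ hσ]
    simp only
    rw [ha₁ ℓ hℓ hℓN hℓS]
    rfl
  have hatt := P.isAttachedAdic_of_isGood hgood
  refine ⟨OL 𝒪' K₁, inferInstance, inferInstance, inferInstance, inferInstance, inferInstance,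
    inferInstance, inferInstance, hfin1, hloc1, hinj1, P.toRep, ?_, ?_⟩
  · intro ℓ hℓ hℓN hℓS A hA σ hσ
    have hℓp : ℓ ≠ p := by
      rintro rfl
      exact hℓS (Finset.mem_coe.mpr hpS)
    rw [hatt.1 ℓ hℓ (not_dvd_mul_of_prime hℓ hp hℓN hℓp) A hA σ hσ, ha₁ ℓ hℓ hℓN hℓS]
    rfl
  · intro q hq hqp hqN
    exact not_isUnipotentOnInertiaAt_of_inertiaFreeSq P hPI hq hqp hqN


end Fermat.Agent.S45lib.Hub
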