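/-
S45lib / Hub / Kill  (helper7)

FROM `AuxInertiaNewK` TO (IKILL) AT ALL PRIMES `q ≠ p` WITH `q² ∣ N`.

* `inertiaNewTors_of_auxK` : `AuxInertiaNewK p ⟹ Xfer.InertiaNewTors N₁ q p` for ALL `(N₁, q)` with
  `q² ∣ N₁`, `q ≠ p` (level `N₁ q`, exponent `≥ 3`), by helper1's transfer
  `Xfer.inertiaNewTors_of_mul` (stated for `q ∣ N`) to the auxiliary level `N₁ · auxMul q`;
* `inertiaKillSq_of_auxK` : `AuxInertiaNewK p ⟹ InertiaKillSq N p g` for every newform `g` of level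
  `N`: exponent `2` is `S36lib.J.inertiaKillTors_all`, exponent `≥ 3` is
  `R2.inertiaKillAt_of_inertiaNewTors` (generic in the exponent).
-/
import Fermat.Agent.S45lib.Hub.Iface
import Fermat.Agent.S36lib.J.Close

set_option autoImplicit false
set_option linter.style.haveILetI false
set_option linter.unusedSectionVars false

noncomputable section

namespace Fermat.Agent.S45lib.Hub

open CuspForm CongruenceSubgroup ModularCurve
open Fermat.Agent.S36lib

/-- **(C45) at all levels from (C45) at the auxiliary levels.** -/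
theorem inertiaNewTors_of_auxK {p : ℕ} (hp : p.Prime) (H : AuxInertiaNewK p)
    (N₁ q : ℕ) [NeZero N₁] [NeZero q] (hq : q.Prime) (hq2 : q ^ 2 ∣ N₁) (hqp : q ≠ p) :
    Xfer.InertiaNewTors N₁ q p := by
  obtain ⟨j, M, hqM, hN₁⟩ := Nat.exists_eq_pow_mul_and_not_dvd (NeZero.ne N₁) q hq.ne_one
  have hN₁' : N₁ = M * q ^ j := by rw [hN₁, mul_comm]
  have hM0 : M ≠ 0 := by
    rintro rfl
    exact hqM (dvd_zero q)
  have hj : 2 ≤ j := by
    by_contra hlt
    push Not at hlt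
    have hj1 : j ≤ 1 := by omega
    -- `q ^ 2 ∣ q ^ j * M` with `j ≤ 1` forces `q ∣ M`
    have h1 : q ^ 2 ∣ q ^ 1 * M :=
      hq2.trans (hN₁ ▸ Nat.mul_dvd_mul_right (pow_dvd_pow q hj1) M)
    rw [pow_two, pow_one] at h1
    exact hqM ((Nat.mul_dvd_mul_iff_left hq.pos).1 h1)
  haveI : Fact q.Prime := ⟨hq⟩
  haveI : NeZero M := ⟨hM0⟩
  haveI : NeZero (M * Fin.auxMul q) := ⟨Nat.mul_ne_zero hM0 (Fin.auxMul_ne_zero q)⟩
  haveI : NeZero (M * Fin.auxMul q * q ^ j) :=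
    ⟨Nat.mul_ne_zero (NeZero.ne _) (pow_ne_zero j hq.ne_zero)⟩
  have hr := Fin.coprime_auxMul hq
  have hqM' : ¬ q ∣ M * Fin.auxMul q := by
    intro hd
    rcases (Nat.Prime.dvd_mul hq).1 hd with h | h
    · exact hqM h
    · exact (Nat.Prime.coprime_iff_not_dvd hq).1 hr.symm h
  have H' := H (M * Fin.auxMul q) q j hq hqM' hqp (Fin.isAuxLevel_mul_auxMul M hq) hj
  have hqN : q ∣ N₁ := (dvd_pow_self q two_ne_zero).trans hq2
  exact Xfer.inertiaNewTors_of_mul (N := N₁) (N' := M * Fin.auxMul q * q ^ j) hp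
    ⟨Fin.auxMul q, by rw [hN₁']; ring⟩ hqN (Fin.auxMul q) (by rw [hN₁']; ring) hr H'

/-- **(IKILL) at all `q ≠ p` with `q² ∣ N` from (C45) at the auxiliary levels.** -/
theorem inertiaKillSq_of_auxK {N p : ℕ} [NeZero N] (hp : p.Prime)
    {g : CuspForm (Gamma0 N) 2} (hg : g.IsNewform) (H : AuxInertiaNewK p) :
    InertiaKillSq N p g := by
  intro q hq hqp hq2
  have hN0 : N ≠ 0 := NeZero.ne N
  by_cases hq3 : q ^ 3 ∣ N
  · -- exponent `≥ 3`: the new input
    obtain ⟨N₁, rfl⟩ : ∃ N₁, N = N₁ * q :=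
      ⟨N / q, (Nat.div_mul_cancel ((dvd_pow_self q two_ne_zero).trans hq2)).symm⟩
    haveI : NeZero q := ⟨hq.ne_zero⟩
    haveI : Fact q.Prime := ⟨hq⟩
    haveI : NeZero N₁ := ⟨by
      rintro rfl
      exact hN0 (zero_mul q)⟩
    have hq2N₁ : q ^ 2 ∣ N₁ := by
      have h3 : q ^ 2 * q ∣ N₁ * q := by rwa [← pow_succ]
      exact (Nat.mul_dvd_mul_iff_right hq.pos).1 h3
    have hqN₁ : q ∣ N₁ := (dvd_pow_self q two_ne_zero).trans hq2N₁
    exact R2.inertiaKillAt_of_inertiaNewTors hqN₁ hp hg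
      (inertiaNewTors_of_auxK hp H N₁ q hq hq2N₁ hqp)
  · -- exponent `2`: S36lib
    have hfac : N.factorization q = 2 := by
      have h2 : 2 ≤ N.factorization q := (hq.pow_dvd_iff_le_factorization hN0).mp hq2
      have h3 : ¬ 3 ≤ N.factorization q := fun h =>
        hq3 ((hq.pow_dvd_iff_le_factorization hN0).mpr h)
      omega
    exact J.inertiaKillTors_all hp hg q hq hqp hfac

end Fermat.Agent.S45lib.Hub
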